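import Fermat.Agent.S19.Lvl.Tower
import Fermat.Agent.S19.Top.Final

/-!
# S19 block LVL: the contract `TowerContract p M` of `Top/Final.lean`.
-/

set_option autoImplicit false

namespace Fermat.Agent.S19.Lvl

open AlgebraicCurve ModularCurve Fermat.Agent.Lib.RR IntermediateField

/-- abstract form (for the concrete fields the kernel is too slow on `rfl`). -/
theorem tower_abs {Ω : Type} [Field Ω] [Algebra Qb Ω] (K₁ K₂ : IntermediateField Qb Ω)
    (h : K₁ ≤ K₂) [IsFF Qb K₂] (x₁ : K₁) (x₂ : K₂) (hx : (x₁ : Ω) = x₂)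
    (hx₂ : Transcendental Qb x₂)
    (ρ₁ : GQ →* SemilinearAut Qb K₁) (ρ₂ : GQ →* SemilinearAut Qb K₂)
    (hcompat : ∀ (σ : GQ) (f : K₁),
      ((ρ₂ σ • IntermediateField.inclusion h f : K₂) : Ω) = ((ρ₁ σ • f : K₁) : Ω)) :
    ∃ (_ : Algebra K₁ K₂) (_ : IsScalarTower Qb K₁ K₂) (_ : FiniteDimensional K₁ K₂)
      (_ : Algebra.IsSeparable K₁ K₂),
      ∀ (σ : GQ) (f : K₁), ρ₂ σ • algebraMap K₁ K₂ f = algebraMap K₁ K₂ (ρ₁ σ • f) := by
  have : FiniteDimensional Qb⟮x₂⟯ K₂ := Fermat.Agent.S19.Weil.finiteDimensional_adjoin hx₂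
  have : Algebra.IsSeparable Qb⟮x₂⟯ K₂ := Fermat.Agent.S19.Weil.isSeparable_adjoin hx₂
  let _ : Algebra K₁ K₂ := (IntermediateField.inclusion h).toRingHom.toAlgebra
  obtain ⟨h1, -, h3, h4, -⟩ := Fermat.Agent.GAL.Igusa.tower_abstract K₁ K₂ h x₁ x₂ hx
  exact ⟨_, h1, h3, h4, fun σ f => Subtype.ext (hcompat σ f)⟩

theorem towerContract (p M : ℕ) [NeZero p] [NeZero M] (h : p ∣ M) : TowerContract p M := by
  have i1 : Lib.RR.IsFF Qb (modularFunctionFieldBar p) := isFF_FN p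
  have i2 : Lib.RR.IsFF Qb (modularFunctionFieldBar M) := isFF_FN M
  obtain ⟨a, b, c, d, e⟩ := tower_abs (modularFunctionFieldBar p) (modularFunctionFieldBar M)
    (bar_le h) (S24.jF p) (S24.jF M) rfl (S24.transcendental_jF M)
    (arithmeticGalois (L := Qb) (modularFunctionFieldFull p))
    (arithmeticGalois (L := Qb) (modularFunctionFieldFull M)) (fun σ f => by
      rw [coe_arithmeticGalois_smul, coe_arithmeticGalois_smul, IntermediateField.coe_inclusion])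
  exact ⟨i1, i2, a, b, c, d, e⟩

end Fermat.Agent.S19.Lvl
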