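import Fermat.Agent.S19.Weil.NormOrd
import Fermat.Prelude.Def_AlgebraicCurve_BaseChangeGalois

/-!
# S19 block LVL, L1: `π_* π^* = [F' : F]` on `Pic⁰`, and `π_*` is equivariant.
-/

set_option autoImplicit false
set_option linter.unusedSectionVars false

namespace Fermat.Agent.S19.Lvl

open AlgebraicCurve Fermat.Agent.Lib.RR Fermat.Agent.S19.Weil

variable {K F F' : Type*} [Field K] [IsAlgClosed K] [Field F] [Field F'] [Algebra K F]
  [Algebra K F'] [Algebra F F'] [IsScalarTower K F F'] [FiniteDimensional F F']
  [Algebra.IsSeparable F F'] [IsFF K F] [IsFF K F']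

/-- `π_* π^* D = [F' : F] D`. -/
theorem mapRestrict_pullback (D : Divisor K F) :
    Divisor.mapRestrict F (Divisor.pullback F' D) = Module.finrank F F' • D := by
  induction D using Finsupp.induction_linear with
  | zero => simp
  | add D E hD hE => rw [map_add, map_add, hD, hE, smul_add]
  | single v n =>
    rw [Divisor.pullback_single, map_sum]
    have h1 : ∀ w ∈ v.fiber F', Divisor.mapRestrict F
        (Finsupp.single w (n * (w.ramificationIndex F : ℤ)))
        = Finsupp.single v (n * (w.ramificationIndex F : ℤ)) := by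
      intro w hw
      rw [Divisor.mapRestrict_single, Place.mem_fiber.mp hw]
    rw [Finset.sum_congr rfl h1, ← Finsupp.single_finsetSum, ← Finset.mul_sum,
      Fermat.Agent.GAL.FF.sum_ramificationIndex, Finsupp.smul_single, nsmul_eq_mul, mul_comm]

variable (K F F') in
/-- `π_*` on classes. -/
noncomputable def pushHom : Pic0 K F' →+ Pic0 K F :=
  Pic0.pushforwardHom K F F' pushforwardNormFormula

theorem pushHom_mk (D : Divisor.degZero (K := K) (F := F')) :
    pushHom K F F' (Pic0.mk D) = Pic0.mk (Pic0.pushforwardDegZeroHom F D) := rfl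

/-- `π_* π^* = [F' : F]`. -/
theorem pushHom_pullbackHom (x : Pic0 K F) :
    pushHom K F F' (Pic0.pullbackHom F' x) = Module.finrank F F' • x := by
  obtain ⟨D, rfl⟩ := Pic0.mk_surjective x
  rw [Pic0.pullbackHom_mk, pushHom_mk]
  have h : Pic0.pushforwardDegZeroHom F (Pic0.pullbackDegZeroHom F' D)
      = Module.finrank F F' • D := by
    apply Subtype.ext
    rw [Pic0.coe_pushforwardDegZeroHom, Pic0.coe_pullbackDegZeroHom, pushforward_eq_mapRestrict,
      mapRestrict_pullback]
    simp
  rw [h]
  rfl

section equivariance

variable (g : SemilinearAut K F) (g' : SemilinearAut K F')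
  (hgg' : ∀ f : F, g' • algebraMap F F' f = algebraMap F F' (g • f))

include hgg'

theorem restrict_smul (w : Place K F') : (g' • w).restrict F = g • w.restrict F := by
  have hinv : ∀ f : F, g'⁻¹ • algebraMap F F' f = algebraMap F F' (g⁻¹ • f) := by
    intro f
    rw [inv_smul_eq_iff, hgg', smul_inv_smul]
  apply Place.ext
  ext f
  rw [Place.mem_restrict_iff, SemilinearAut.smul_toValuationSubring,
    SemilinearAut.smul_toValuationSubring,
    ValuationSubring.mem_pointwise_smul_iff_inv_smul_mem,
    ValuationSubring.mem_pointwise_smul_iff_inv_smul_mem, hinv, Place.mem_restrict_iff]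

theorem mapRestrict_smul (D' : Divisor K F') :
    Divisor.mapRestrict F (g' • D') = g • Divisor.mapRestrict F D' := by
  induction D' using Finsupp.induction_linear with
  | zero => simp
  | add D E hD hE => rw [smul_add, map_add, map_add, hD, hE, smul_add]
  | single w n =>
    rw [SemilinearAut.smul_single, Divisor.mapRestrict_single, Divisor.mapRestrict_single,
      SemilinearAut.smul_single, restrict_smul g g' hgg']

theorem pushHom_smul (y : Pic0 K F') : pushHom K F F' (g' • y) = g • pushHom K F F' y := by
  obtain ⟨D, rfl⟩ := Pic0.mk_surjective y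
  rw [SemilinearAut.pic0_smul_mk, pushHom_mk, pushHom_mk, SemilinearAut.pic0_smul_mk]
  congr 1
  apply Subtype.ext
  rw [Pic0.coe_pushforwardDegZeroHom, SemilinearAut.coe_degZeroSMulHom,
    SemilinearAut.coe_degZeroSMulHom, Pic0.coe_pushforwardDegZeroHom, pushforward_eq_mapRestrict,
    pushforward_eq_mapRestrict, mapRestrict_smul g g' hgg']

end equivariance

end Fermat.Agent.S19.Lvl
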