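import Fermat.Agent.S19.Lvl.Subquot
import Fermat.Agent.S19.Lvl.PushPull
import Fermat.Agent.S19.DIV.Export
import Fermat.Agent.S27.CharP

/-!
# S19 block LVL, L2: descent of the level (abstract form).

`F ⊆ F'` function fields over `ℚ̄` with compatible semilinear `G_ℚ`-actions.  If all `Pic⁰(F')[ℓ^n]` have
Hopf orders of functions, so have all `Pic⁰(F)[ℓ^n]`.

`[F' : F] = ℓ^c d'`, `ℓ ∤ d'`.  `π_* : Pic⁰(F')[ℓ^{n+c}] → Pic⁰(F)` is equivariant and its image contains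
`Pic⁰(F)[ℓ^n]`: for `x` choose `z` with `ℓ^c z = x` (block DIV) and `a d' ≡ 1 mod ℓ^{n+c}`; then
`π_* (a π^* z) = a ℓ^c d' z = x`.  Conclude with `IsFunFlat.of_subquotient`.
-/

set_option autoImplicit false

namespace Fermat.Agent.S19.Lvl

open AlgebraicCurve Fermat.Agent.Lib.RR

theorem exists_pow_nsmul_eq {K F : Type} [Field K] [Field F] [Algebra K F] [IsAlgClosed K]
    [CharZero K] [IsFF K F] (ℓ : ℕ) (hℓ : ℓ.Prime) (c : ℕ) (x : Pic0 K F) :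
    ∃ z : Pic0 K F, ℓ ^ c • z = x := by
  induction c generalizing x with
  | zero => exact ⟨x, by simp⟩
  | succ c ih =>
    obtain ⟨y, rfl⟩ := DIV.divStatement K F ℓ hℓ x
    obtain ⟨z, rfl⟩ := ih y
    exact ⟨z, by rw [pow_succ', mul_smul]⟩

theorem finite_torsion {K F : Type} [Field K] [Field F] [Algebra K F] [IsAlgClosed K]
    [CharZero K] [IsFF K F] (ℓ : ℕ) (hℓ : ℓ.Prime) (e : ℕ) :
    Finite (Pic0.torsion K F (ℓ ^ e)) := by
  apply Nat.finite_of_card_ne_zero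
  rw [S27.card_torsion_charZero K F ℓ hℓ e]
  exact pow_ne_zero _ hℓ.ne_zero

variable {F F' : Type} [Field F] [Field F'] [Algebra Qb F] [Algebra Qb F'] [Algebra F F']
  [IsScalarTower Qb F F'] [FiniteDimensional F F'] [Algebra.IsSeparable F F'] [IsFF Qb F]
  [IsFF Qb F']

/-- the image of `π_*` on `Pic⁰(F')[ℓ^{n+c}]` contains `Pic⁰(F)[ℓ^n]`. -/
theorem exists_pushHom_eq (ℓ : ℕ) (hℓ : ℓ.Prime) {c d' : ℕ} (hd' : ¬ ℓ ∣ d')
    (hd : Module.finrank F F' = ℓ ^ c * d') (n : ℕ) {x : Pic0 Qb F}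
    (hx : x ∈ Pic0.torsion Qb F (ℓ ^ n)) :
    ∃ y ∈ Pic0.torsion Qb F' (ℓ ^ (n + c)), pushHom Qb F F' y = x := by
  obtain ⟨z, rfl⟩ := exists_pow_nsmul_eq ℓ hℓ c x
  rw [Pic0.mem_torsion, natCast_zsmul, ← mul_smul, ← pow_add] at hx
  have hcop : IsCoprime (d' : ℤ) ((ℓ ^ (n + c) : ℕ) : ℤ) := by
    rw [Nat.isCoprime_iff_coprime]
    exact Nat.Coprime.pow_right _ ((Nat.Prime.coprime_iff_not_dvd hℓ).mpr hd').symm
  obtain ⟨a, b, hab⟩ := hcop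
  refine ⟨a • Pic0.pullbackHom F' z, ?_, ?_⟩
  · rw [Pic0.mem_torsion, natCast_zsmul, smul_comm, ← map_nsmul, hx, map_zero, smul_zero]
  · rw [map_zsmul, pushHom_pullbackHom, hd, mul_comm (ℓ ^ c) d', mul_smul, ← natCast_zsmul
      (ℓ ^ c • z) d', ← mul_smul]
    have h1 : a * (d' : ℤ) = 1 - b * ((ℓ ^ (n + c) : ℕ) : ℤ) := by linarith
    rw [h1, sub_smul, one_smul, mul_smul, natCast_zsmul, smul_comm (ℓ ^ (n + c)) (ℓ ^ c) z, hx,
      smul_zero, smul_zero, sub_zero]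

/-- Descent of the level. -/
theorem isFunFlat_torsion_of_cover (ρ : GQ →* SemilinearAut Qb F) (ρ' : GQ →* SemilinearAut Qb F')
    (hcompat : ∀ (σ : GQ) (f : F), ρ' σ • algebraMap F F' f = algebraMap F F' (ρ σ • f))
    (ℓ : ℕ) [Fact ℓ.Prime]
    (h' : ∀ n, @IsFunFlat ℓ (Pic0.torsion Qb F' (ℓ ^ n)) _ (DistribMulAction.compHom _ ρ')) (n : ℕ) :
    @IsFunFlat ℓ (Pic0.torsion Qb F (ℓ ^ n)) _ (DistribMulAction.compHom _ ρ) := by
  have hℓ : ℓ.Prime := Fact.out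
  obtain ⟨c, d', hd', hd⟩ := Nat.exists_eq_pow_mul_and_not_dvd
    (Module.finrank_pos (R := F) (M := F')).ne' ℓ hℓ.ne_one
  let _ : DistribMulAction GQ (Pic0.torsion Qb F' (ℓ ^ (n + c))) := DistribMulAction.compHom _ ρ'
  let _ : DistribMulAction GQ (Pic0 Qb F) := DistribMulAction.compHom _ ρ
  let _ : DistribMulAction GQ (Pic0.torsion Qb F (ℓ ^ n)) := DistribMulAction.compHom _ ρ
  have : Finite (Pic0.torsion Qb F' (ℓ ^ (n + c))) := finite_torsion ℓ hℓ _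
  refine IsFunFlat.of_subquotient
    (ψ := (pushHom Qb F F').comp (Pic0.torsion Qb F' (ℓ ^ (n + c))).subtype)
    (ι := (Pic0.torsion Qb F (ℓ ^ n)).subtype) Subtype.val_injective ?_ ?_ ?_ (h' (n + c))
  · intro σ y
    exact pushHom_smul (ρ σ) (ρ' σ) (hcompat σ) y.1
  · intro σ x
    rfl
  · intro x
    obtain ⟨y, hy, hyx⟩ := exists_pushHom_eq ℓ hℓ hd' hd n x.2
    exact ⟨⟨y, hy⟩, hyx⟩

end Fermat.Agent.S19.Lvl
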