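import Fermat.Agent.S19.Lvl.Cover
import Fermat.Agent.GAL.Igusa.Tower

/-!
# S19 block LVL, L2': descent of the level for two intermediate fields `K₁ ≤ K₂` of a big field `Ω`.
(Abstract on purpose: for the concrete modular function fields the kernel is very slow on `rfl` proofs.)
-/

set_option autoImplicit false

namespace Fermat.Agent.S19.Lvl

open AlgebraicCurve Fermat.Agent.Lib.RR IntermediateField

theorem isFunFlat_torsion_of_le {Ω : Type} [Field Ω] [Algebra Qb Ω] (K₁ K₂ : IntermediateField Qb Ω)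
    (h : K₁ ≤ K₂) [IsFF Qb K₁] [IsFF Qb K₂] (x₁ : K₁) (x₂ : K₂) (hx : (x₁ : Ω) = x₂)
    (hx₂ : Transcendental Qb x₂)
    (ρ₁ : GQ →* SemilinearAut Qb K₁) (ρ₂ : GQ →* SemilinearAut Qb K₂)
    (hcompat : ∀ (σ : GQ) (f : K₁),
      ((ρ₂ σ • IntermediateField.inclusion h f : K₂) : Ω) = ((ρ₁ σ • f : K₁) : Ω))
    (ℓ : ℕ) [Fact ℓ.Prime]
    (h' : ∀ n, @IsFunFlat ℓ (Pic0.torsion Qb K₂ (ℓ ^ n)) _ (DistribMulAction.compHom _ ρ₂)) (n : ℕ) :
    @IsFunFlat ℓ (Pic0.torsion Qb K₁ (ℓ ^ n)) _ (DistribMulAction.compHom _ ρ₁) := by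
  have : FiniteDimensional Qb⟮x₂⟯ K₂ := Fermat.Agent.S19.Weil.finiteDimensional_adjoin hx₂
  have : Algebra.IsSeparable Qb⟮x₂⟯ K₂ := Fermat.Agent.S19.Weil.isSeparable_adjoin hx₂
  let _ : Algebra K₁ K₂ := (IntermediateField.inclusion h).toRingHom.toAlgebra
  obtain ⟨h1, -, h3, h4, -⟩ := Fermat.Agent.GAL.Igusa.tower_abstract K₁ K₂ h x₁ x₂ hx
  refine isFunFlat_torsion_of_cover (F := K₁) (F' := K₂) ρ₁ ρ₂ (fun σ f => ?_) ℓ h' n
  apply Subtype.ext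
  exact hcompat σ f

end Fermat.Agent.S19.Lvl
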