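import Fermat.Agent.S19.A.Subquot

/-!
# S19 block LVL, L0: equivariant subquotients of `IsFunFlat` modules.
-/

set_option autoImplicit false

namespace Fermat.Agent.S19

/-- The restriction of an action to a stable subgroup. -/
@[reducible] noncomputable def subAction {M : Type} [AddCommGroup M] [DistribMulAction GQ M] (S : AddSubgroup M)
    (hS : ∀ (σ : GQ) (y : M), y ∈ S → σ • y ∈ S) : DistribMulAction GQ S where
  smul σ y := ⟨σ • y.1, hS σ y.1 y.2⟩
  one_smul y := Subtype.ext (one_smul GQ y.1)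
  mul_smul σ τ y := Subtype.ext (mul_smul σ τ y.1)
  smul_zero σ := Subtype.ext (smul_zero σ)
  smul_add σ y z := Subtype.ext (smul_add σ y.1 z.1)

variable {ℓ : ℕ} [Fact ℓ.Prime]

/-- `G'` is an equivariant subquotient of `M`: `ψ : M → X`, `ι : G' ↪ X`, `ι(G') ⊆ ψ(M)`. -/
theorem IsFunFlat.of_subquotient {M X G' : Type} [AddCommGroup M] [Finite M] [AddCommGroup X]
    [AddCommGroup G'] [DistribMulAction GQ M] [DistribMulAction GQ X] [DistribMulAction GQ G']
    (ψ : M →+ X) (ι : G' →+ X) (hι : Function.Injective ι)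
    (hψe : ∀ (σ : GQ) y, ψ (σ • y) = σ • ψ y) (hιe : ∀ (σ : GQ) x, ι (σ • x) = σ • ι x)
    (hr : ∀ x, ∃ y, ψ y = ι x) (h : IsFunFlat ℓ M) : IsFunFlat ℓ G' := by
  let S : AddSubgroup M := ι.range.comap ψ
  have hS : ∀ (σ : GQ) (y : M), y ∈ S → σ • y ∈ S := by
    rintro σ y ⟨x, hx⟩
    exact ⟨σ • x, by rw [hιe, hx, hψe]⟩
  let _ : DistribMulAction GQ S := subAction S hS
  have hSflat : IsFunFlat ℓ S := h.of_injective S.subtype Subtype.val_injective fun _ _ => rfl
  let Ψ : S →+ G' := (AddMonoidHom.ofInjective hι).symm.toAddMonoidHom.comp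
    ((ψ.comp S.subtype).codRestrict ι.range fun y => y.2)
  have hΨ : ∀ y : S, ι (Ψ y) = ψ y.1 := by
    intro y
    have := congrArg Subtype.val ((AddMonoidHom.ofInjective hι).apply_symm_apply
      (((ψ.comp S.subtype).codRestrict ι.range fun y => y.2) y))
    exact this
  refine hSflat.of_surjective Ψ ?_ ?_
  · intro x
    obtain ⟨y, hy⟩ := hr x
    refine ⟨⟨y, x, hy.symm⟩, hι ?_⟩
    rw [hΨ, hy]
  · intro σ y
    apply hι
    rw [hΨ, hιe, hΨ]
    exact hψe σ y.1

end Fermat.Agent.S19
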