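import Fermat.Agent.S19.Lvl.Inter
import Fermat.Agent.GAL.Tors.Desc.IsFF
import Fermat.Prelude.Def_ModularCurve_ArithmeticGalois

/-!
# S19 block LVL, L3: the concrete tower `F_N ⊆ F_M` (`N ∣ M`) of modular function fields over `ℚ̄`.

`isFunFlat_jZero_of_dvd` : if all `J₀(M)[ℓ^n]` have Hopf orders of functions, so have all `J₀(N)[ℓ^n]`.
-/

set_option autoImplicit false

noncomputable section

namespace Fermat.Agent.S19.Lvl

open AlgebraicCurve ModularCurve Fermat.Agent.Lib.RR Fermat.Agent.S24 IntermediateField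

/-- The Galois action on `J₀(N)[m]` (through `arithmeticGalois`). -/
@[reducible] def jAction (N m : ℕ) : DistribMulAction GQ (Pic0.torsion Qb (FN N) m) :=
  DistribMulAction.compHom _ (arithmeticGalois (L := Qb) (modularFunctionFieldFull N))

variable {N M : ℕ} [NeZero N] [NeZero M]

theorem bar_le (h : N ∣ M) : modularFunctionFieldBar N ≤ modularFunctionFieldBar M := by
  apply IntermediateField.adjoin.mono
  exact Set.image_mono (full_degeneracy_le h)

theorem isFF_FN (N : ℕ) [NeZero N] : Lib.RR.IsFF Qb (FN N) := Fermat.Agent.GAL.Desc.isFF_FF_Kbar N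

theorem isFunFlat_jZero_of_dvd (h : N ∣ M) (ℓ : ℕ) [Fact ℓ.Prime]
    (h' : ∀ n, @IsFunFlat ℓ (Pic0.torsion Qb (FN M) (ℓ ^ n)) _ (jAction M (ℓ ^ n))) (n : ℕ) :
    @IsFunFlat ℓ (Pic0.torsion Qb (FN N) (ℓ ^ n)) _ (jAction N (ℓ ^ n)) := by
  have : Lib.RR.IsFF Qb (modularFunctionFieldBar N) := isFF_FN N
  have : Lib.RR.IsFF Qb (modularFunctionFieldBar M) := isFF_FN M
  refine isFunFlat_torsion_of_le (modularFunctionFieldBar N) (modularFunctionFieldBar M) (bar_le h)
    (jF N) (jF M) rfl (transcendental_jF M)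
    (arithmeticGalois (L := Qb) (modularFunctionFieldFull N))
    (arithmeticGalois (L := Qb) (modularFunctionFieldFull M)) (fun σ f => ?_) ℓ h' n
  rw [coe_arithmeticGalois_smul, coe_arithmeticGalois_smul, IntermediateField.coe_inclusion]

end Fermat.Agent.S19.Lvl
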